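/-
ORD (helper83): LOCAL ↔ GLOBAL TRANSPORT for the Prelude predicate `GaloisRepAdic.IsOrdinaryAt`.

`IsOrdinaryAt ρ p` quantifies over ALL valuation subrings `P` of `ℚ̄` over `p` and speaks about
Mathlib's decomposition subgroup and the Prelude inertia subgroup of `P`.  Every chapter of ORD
(FLATORD, OLD, TORIC) proves a statement about the local Galois group `G_p = Gal(ℚ̄_p/ℚ_p)`
(`GQp p`), its inertia `Spec72.inertiaSet p` (norm language) and the Prelude map
`localGaloisToGlobal p`.  This file shows that the two are EQUIVALENT, for an arbitrary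
homomorphism `r : G_ℚ →* End_A V`:

* `OrdAt r P`  : the Prelude condition at one place `P`;
* `OrdLoc r p` : the same condition for `(GQp p, inertiaSet p)` through `localGaloisToGlobal p`;
* `ordAt_padicPlace_iff` : `OrdAt r (padicPlace p) ↔ OrdLoc r p`;
* `OrdAt.smul` : `OrdAt r P → OrdAt r (g • P)` (conjugate places);
* `forall_ordAt_iff` : `(∀ P over p, OrdAt r P) ↔ OrdLoc r p`;
* `isOrdinaryAt_iff` : `ρ.IsOrdinaryAt p ↔ OrdLoc ρ.ρ p`.
-/
import Mathlib
import Fermat.Prelude.Def_GaloisRep_LocalConditions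
import Fermat.Agent.TW.Bridge.LocalInertia97
import Fermat.Agent.TW.LocalQ.PlaceConj96
import Fermat.Agent.TW.OrdLocal.PadicPlace97
import Fermat.Agent.TW.FF.Spec72

set_option autoImplicit false
set_option linter.unusedSectionVars false

open scoped Pointwise

open Fermat.Agent.TW.FF.FlatModel68 Fermat.Agent.TW.FF.Spec72
open Fermat.Agent.TW.Bridge.LocalGlobal97 Fermat.Agent.TW.Bridge.LocalInertia97
open Fermat.Agent.TW.LocalQ.PlaceConj96 Fermat.Agent.TW.OrdLocal.PadicPlace97

namespace Fermat.Agent.ORD.Local.Transport83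

local notation "Qb" => AlgebraicClosure ℚ
local notation "GQ" => (AlgebraicClosure ℚ ≃ₐ[ℚ] AlgebraicClosure ℚ)

variable {A V : Type*} [CommRing A] [AddCommGroup V] [Module A V] (r : GQ →* Module.End A V)

/-- The Prelude ordinarity condition at ONE place `P` of `ℚ̄`. -/
def OrdAt (P : ValuationSubring Qb) : Prop :=
  ∃ L : Submodule A V,
    (∃ b : Module.Basis (Fin 2) A V, L = A ∙ b 0) ∧
    (∀ σ ∈ P.decompositionSubgroup ℚ, ∀ v ∈ L, r σ v ∈ L) ∧
    (∀ σ ∈ P.inertiaSubgroupIn ℚ, ∀ v : V, r σ v - v ∈ L)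

/-- The ordinarity condition for the local Galois group `G_p` and its inertia subgroup in norm
language. -/
def OrdLoc (p : ℕ) [Fact p.Prime] : Prop :=
  ∃ L : Submodule A V,
    (∃ b : Module.Basis (Fin 2) A V, L = A ∙ b 0) ∧
    (∀ g : GQp p, ∀ v ∈ L, r (localGaloisToGlobal p g) v ∈ L) ∧
    (∀ τ ∈ inertiaSet p, ∀ v : V, r (localGaloisToGlobal p τ) v - v ∈ L)

theorem ordAt_padicPlace_iff (p : ℕ) [Fact p.Prime] : OrdAt r (padicPlace p) ↔ OrdLoc r p := by
  constructor
  · rintro ⟨L, hb, hD, hI⟩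
    refine ⟨L, hb, fun g v hv => hD _ (localGaloisToGlobal_mem_decompositionSubgroup p g) v hv,
      fun τ hτ v => hI _ ((localGaloisToGlobal_mem_inertia_iff p τ).2 hτ) v⟩
  · rintro ⟨L, hb, hD, hI⟩
    refine ⟨L, hb, fun σ hσ v hv => ?_, fun σ hσ v => ?_⟩
    · obtain ⟨τ, rfl⟩ := exists_localGaloisToGlobal_eq p hσ
      exact hD τ v hv
    · obtain ⟨τ, rfl, hτ⟩ := exists_local_inertia_of_mem_inertia p hσ
      exact hI τ hτ v

variable {r}

/-- The condition is transported to conjugate places. -/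
theorem OrdAt.smul {P : ValuationSubring Qb} {q : ℕ} (hq : q.Prime) (hP : P.LiesOverPrime q)
    (h : OrdAt r P) (g : GQ) : OrdAt r (g • P) := by
  obtain ⟨L, ⟨b, hb⟩, hD, hI⟩ := h
  -- the linear automorphism `r g`
  have hgg : r g * r g⁻¹ = 1 := by rw [← map_mul, mul_inv_cancel, map_one]
  have hgg' : r g⁻¹ * r g = 1 := by rw [← map_mul, inv_mul_cancel, map_one]
  have happ : ∀ v, r g (r g⁻¹ v) = v := fun v => LinearMap.congr_fun hgg v
  have happ' : ∀ v, r g⁻¹ (r g v) = v := fun v => LinearMap.congr_fun hgg' v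
  let e : V ≃ₗ[A] V := LinearEquiv.ofLinearMap (r g) (r g⁻¹)
    (LinearMap.ext happ) (LinearMap.ext happ')
  have he : ∀ v, e v = r g v := fun _ => rfl
  refine ⟨L.map (r g), ⟨b.map e, ?_⟩, ?_, ?_⟩
  · rw [hb, Submodule.map_span, Set.image_singleton, Module.Basis.map_apply, he]
  · intro σ hσ v hv
    obtain ⟨w, hw, rfl⟩ := Submodule.mem_map.1 hv
    have hconj : g⁻¹ * σ * g ∈ P.decompositionSubgroup ℚ := by
      have h1 : σ • (g • P) = g • P := hσ
      show (g⁻¹ * σ * g) • P = P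
      rw [mul_smul, mul_smul, h1, inv_smul_smul]
    have h2 := hD _ hconj w hw
    refine Submodule.mem_map.2 ⟨_, h2, ?_⟩
    have e1 : r g * r (g⁻¹ * σ * g) = r σ * r g := by
      rw [← map_mul, ← map_mul]
      congr 1
      group
    exact LinearMap.congr_fun e1 w
  · intro σ hσ v
    have hgP : (g • P).LiesOverPrime q := liesOverPrime_smul g hP
    have hconj : g⁻¹ * σ * g ∈ P.inertiaSubgroupIn ℚ := by
      have h1 := conj_mem_inertiaSubgroupIn hq hgP g⁻¹ hσ
      rwa [inv_smul_smul, inv_inv] at h1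
    have h2 := hI _ hconj (r g⁻¹ v)
    refine Submodule.mem_map.2 ⟨_, h2, ?_⟩
    have e1 : r g * r (g⁻¹ * σ * g) * r g⁻¹ = r σ := by
      rw [← map_mul, ← map_mul]
      congr 1
      group
    have e2 := congrArg (fun f : Module.End A V => f v) e1
    simp only [Module.End.mul_apply] at e2
    rw [map_sub, e2, happ]

variable (r)

/-- The Prelude condition at ALL places over `p` is equivalent to the local condition. -/
theorem forall_ordAt_iff (p : ℕ) [hp : Fact p.Prime] :
    (∀ P : ValuationSubring Qb, P.LiesOverPrime p → OrdAt r P) ↔ OrdLoc r p := by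
  constructor
  · intro h
    exact (ordAt_padicPlace_iff r p).1 (h _ (padicPlace_liesOverPrime p))
  · intro h P hP
    obtain ⟨g, rfl⟩ := exists_smul_eq_of_liesOverPrime hp.out (padicPlace_liesOverPrime p) hP
    exact ((ordAt_padicPlace_iff r p).2 h).smul hp.out (padicPlace_liesOverPrime p) g

/-- **Transport.** `IsOrdinaryAt` is the local condition on `(GQp p, inertiaSet p)`. -/
theorem isOrdinaryAt_iff {A : Type} [CommRing A] [IsLocalRing A] (ρ : GaloisRepAdic A) (p : ℕ)
    [Fact p.Prime] : ρ.IsOrdinaryAt p ↔ OrdLoc ρ.ρ p :=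
  forall_ordAt_iff ρ.ρ p

theorem isOrdinaryAt_of_ordLoc {A : Type} [CommRing A] [IsLocalRing A] (ρ : GaloisRepAdic A)
    (p : ℕ) [Fact p.Prime] (h : OrdLoc ρ.ρ p) : ρ.IsOrdinaryAt p :=
  (isOrdinaryAt_iff ρ p).2 h

theorem ordLoc_of_isOrdinaryAt {A : Type} [CommRing A] [IsLocalRing A] (ρ : GaloisRepAdic A)
    (p : ℕ) [Fact p.Prime] (h : ρ.IsOrdinaryAt p) : OrdLoc ρ.ρ p :=
  (isOrdinaryAt_iff ρ p).1 h


/-! ### Conjugation-invariant conditions on inertia -/

/-- A conjugation-invariant condition holds on the inertia groups of ALL places over `p` iff it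
holds on the image of the local inertia group. -/
theorem forall_inertia_iff (p : ℕ) [hp : Fact p.Prime] (S : Set GQ)
    (hS : ∀ g σ : GQ, σ ∈ S → g * σ * g⁻¹ ∈ S) :
    (∀ P : ValuationSubring Qb, P.LiesOverPrime p → ∀ σ ∈ P.inertiaSubgroupIn ℚ, σ ∈ S) ↔
      ∀ τ ∈ inertiaSet p, localGaloisToGlobal p τ ∈ S := by
  constructor
  · intro h τ hτ
    exact h _ (padicPlace_liesOverPrime p) _ ((localGaloisToGlobal_mem_inertia_iff p τ).2 hτ)
  · intro h P hP σ hσ
    obtain ⟨g, rfl⟩ := exists_smul_eq_of_liesOverPrime hp.out (padicPlace_liesOverPrime p) hP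
    have hgP : (g • padicPlace p).LiesOverPrime p := liesOverPrime_smul g (padicPlace_liesOverPrime p)
    have hconj : g⁻¹ * σ * g ∈ (padicPlace p).inertiaSubgroupIn ℚ := by
      have h1 := conj_mem_inertiaSubgroupIn hp.out hgP g⁻¹ hσ
      rwa [inv_smul_smul, inv_inv] at h1
    obtain ⟨τ, hτeq, hτ⟩ := exists_local_inertia_of_mem_inertia p hconj
    have h2 := hS g _ (h τ hτ)
    rw [hτeq] at h2
    have e : g * (g⁻¹ * σ * g) * g⁻¹ = σ := by group
    rwa [e] at h2

/-- `IsUnramifiedAt` in local terms. -/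
theorem isUnramifiedAt_iff {A : Type} [CommRing A] [IsLocalRing A] (ρ : GaloisRepAdic A) (p : ℕ)
    [Fact p.Prime] :
    ρ.IsUnramifiedAt p ↔ ∀ τ ∈ inertiaSet p, ρ.ρ (localGaloisToGlobal p τ) = 1 := by
  refine forall_inertia_iff p {σ | ρ.ρ σ = 1} ?_
  intro g σ hσ
  show ρ.ρ (g * σ * g⁻¹) = 1
  have hσ' : ρ.ρ σ = 1 := hσ
  rw [map_mul, map_mul, hσ', mul_one, ← map_mul, mul_inv_cancel, map_one]

end Fermat.Agent.ORD.Local.Transport83
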